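import Mathlib

/-!
# S15-NE : an integral, injective endomorphism divides a nonzero integer
-/

set_option autoImplicit false

namespace Fermat.Agent.S15.NE

open Polynomial in
theorem Alg_aux {T : Type*} [CommRing T] (t : T) (ht : ∀ x : T, t * x = 0 → x = 0) (n : ℕ) :
    ∀ P : ℤ[X], P ≠ 0 → P.natDegree ≤ n → aeval t P = 0 →
      ∃ (m : ℤ) (t' : T), m ≠ 0 ∧ t * t' = (m : T) := by
  induction n with
  | zero =>
    intro P hP hdeg h0
    rw [eq_C_of_natDegree_le_zero hdeg] at h0 hP
    refine ⟨P.coeff 0, 0, fun h => hP (by rw [h, C_0]), ?_⟩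
    rw [aeval_C] at h0
    rw [mul_zero]
    simpa using h0.symm
  | succ n ih =>
    intro P hP hdeg h0
    have hdec : aeval t P.divX * t + ((P.coeff 0 : ℤ) : T) = 0 := by
      have h1 : aeval t (P.divX * X + C (P.coeff 0)) = 0 := by rw [divX_mul_X_add, h0]
      simpa using h1
    by_cases hc : P.coeff 0 = 0
    · rw [hc, Int.cast_zero, add_zero, mul_comm] at hdec
      have h1 := ht _ hdec
      refine ih P.divX ?_ ?_ h1
      · intro h2
        apply hP
        rw [← divX_mul_X_add P, h2, hc]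
        simp
      · rw [natDegree_divX_eq_natDegree_tsub_one]
        omega
    · refine ⟨P.coeff 0, - aeval t P.divX, hc, ?_⟩
      linear_combination -hdec

/-- PROOF.  `t` is integral over `ℤ` (`Algebra.IsIntegral.of_finite`): `P` monic in `ℤ[X]` with
`aeval t P = 0`.  Write `P = X ^ k * R` with `R.coeff 0 ≠ 0` (`Polynomial.exists_eq_pow_rootMultiplicity_mul_and_not_dvd`
for the root `0`, or strong induction on the degree using `Polynomial.X_dvd_iff`, `divX`).
`t ^ k * aeval t R = 0` and `t` is not a zero divisor, so `aeval t R = 0`.  `R = X * R.divX + C (R.coeff 0)`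
(`Polynomial.divX_mul_X_add`): `t * aeval t R.divX = - R.coeff 0`.  Take `m = - R.coeff 0`. -/
theorem exists_mul_eq_int_of_finite {T : Type*} [CommRing T] [Module.Finite ℤ T] (t : T)
    (ht : ∀ x : T, t * x = 0 → x = 0) : ∃ (m : ℤ) (t' : T), m ≠ 0 ∧ t * t' = (m : T) := by
  obtain ⟨P, hP, h0⟩ := Algebra.IsIntegral.isIntegral (R := ℤ) t
  exact Alg_aux t ht P.natDegree P hP.ne_zero le_rfl (by rwa [Polynomial.aeval_def])

end Fermat.Agent.S15.NE
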