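import Fermat.Agent.S15.NE.Main
import Fermat.Agent.S15.NE.Alg
import Fermat.Agent.S22

/-!
# S15-NE : export on the Hecke algebra of the Prelude
-/

set_option autoImplicit false

open CuspForm

namespace Fermat.Agent.S15.NE

variable {N : ℕ} [NeZero N] {S : Set ℕ}

/-- `x : heckeAlgebra`, `(T_q - c) x = 0`.  For every cusp form `f`, `g := x f` satisfies
`heckeT 2 q g = c • g` (`coe_heckeTLin_apply`; the algebra is commutative / just evaluate the product
of endomorphisms at `f`), so `g = 0` by `eq_zero_of_heckeT_eq` (`‖(c : ℂ)‖ = |c| ≥ q + 1`). So `x = 0`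
(`Subtype.ext`, `LinearMap.ext`). -/
theorem T_sub_int_mul_eq_zero {q : ℕ} (hq : q.Prime) (hqN : ¬ q ∣ N) (hqS : q ∉ S) (c : ℤ)
    (hc : (q : ℤ) + 1 ≤ |c|) (x : heckeAlgebra N 2 S)
    (hx : (heckeAlgebra.T hq hqN hqS - (c : heckeAlgebra N 2 S)) * x = 0) : x = 0 := by
  apply Subtype.ext
  refine LinearMap.ext fun f => ?_
  show (x : Module.End ℂ (CuspForm (CongruenceSubgroup.Gamma0 N) 2)) f = 0
  have h1 := congrArg (fun y : heckeAlgebra N 2 S =>
    (y : Module.End ℂ (CuspForm (CongruenceSubgroup.Gamma0 N) 2)) f) hx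
  have hcast : ((c : heckeAlgebra N 2 S) : Module.End ℂ (CuspForm (CongruenceSubgroup.Gamma0 N) 2)) =
      (c : Module.End ℂ (CuspForm (CongruenceSubgroup.Gamma0 N) 2)) := rfl
  simp only [Subalgebra.coe_mul, Subalgebra.coe_sub, heckeAlgebra.coe_T, hcast,
    Module.End.mul_apply, LinearMap.sub_apply, Module.End.intCast_apply, Subalgebra.coe_zero,
    LinearMap.zero_apply] at h1
  have h2 : heckeTLin 2 hq hqN ((x : Module.End ℂ (CuspForm (CongruenceSubgroup.Gamma0 N) 2)) f) =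
      (c : ℂ) • ((x : Module.End ℂ (CuspForm (CongruenceSubgroup.Gamma0 N) 2)) f) := by
    rw [Int.cast_smul_eq_zsmul]
    exact sub_eq_zero.1 h1
  refine eq_zero_of_heckeT_eq _ hq.two_le (c := (c : ℂ)) ?_ ?_
  · rw [Complex.norm_intCast]
    exact_mod_cast hc
  · rw [← coe_heckeTLin_apply 2 hq hqN, h2]
    rfl

/-- **(NE), algebraic form.** -/
theorem exists_mul_eq_int {q : ℕ} (hq : q.Prime) (hqN : ¬ q ∣ N) (hqS : q ∉ S) (c : ℤ)
    (hc : (q : ℤ) + 1 ≤ |c|) :
    ∃ (m : ℤ) (t : heckeAlgebra N 2 S), m ≠ 0 ∧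
      (heckeAlgebra.T hq hqN hqS - (c : heckeAlgebra N 2 S)) * t = (m : heckeAlgebra N 2 S) := by
  have : Module.Finite ℤ (heckeAlgebra N 2 S) := Fermat.Agent.S22.result N 2 S
  exact exists_mul_eq_int_of_finite _ (T_sub_int_mul_eq_zero hq hqN hqS c hc)

/-- contrapositive of `eq_zero_of_heckeT_eq`: eigenvalues of `T_q` on weight 2 cusp forms have
absolute value `< q + 1`. -/
theorem norm_lt_of_heckeT_eq (f : CuspForm (CongruenceSubgroup.Gamma0 N) 2) (hf : f ≠ 0) {q : ℕ}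
    (hq : 2 ≤ q) {c : ℂ} (h : ModularForm.heckeT 2 q ⇑f = c • ⇑f) : ‖c‖ < (q : ℝ) + 1 := by
  by_contra hc
  exact hf (eq_zero_of_heckeT_eq f hq (not_lt.mp hc) h)

end Fermat.Agent.S15.NE
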