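import Fermat.Agent.S15.NE.Phi

/-!
# S15-NE : `φ(T_q g) ≤ φ(q τ) + ∑ φ((τ+j)/q)`
-/

set_option autoImplicit false

open UpperHalfPlane Filter ModularForm
open scoped Modular MatrixGroups Topology

namespace Fermat.Agent.S15.NE

/-- `im ((τ + j)/q) = im τ / q` -/
theorem im_heckeMatrix_smul {q : ℕ} (hq : q ≠ 0) (j : ℕ) (τ : ℍ) :
    (heckeMatrix q j • τ).im = τ.im / q := by
  rw [← UpperHalfPlane.coe_im, coe_heckeMatrix_smul hq, Complex.div_natCast_im, Complex.add_im,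
    Complex.natCast_im, add_zero, UpperHalfPlane.coe_im]

/-- `im (q τ) = q im τ` -/
theorem im_heckeDiagMatrix_smul {q : ℕ} (hq : q ≠ 0) (τ : ℍ) :
    (heckeDiagMatrix q • τ).im = q * τ.im := by
  rw [← UpperHalfPlane.coe_im, coe_heckeDiagMatrix_smul hq, Complex.mul_im, Complex.natCast_im,
    Complex.natCast_re, zero_mul, add_zero, UpperHalfPlane.coe_im]

/-- `y |T_q g (τ)| ≤ φ(qτ) + ∑_j φ((τ+j)/q)`: `heckeT_apply` with `k = 2`, triangle inequality,
`im_heckeMatrix_smul`, `im_heckeDiagMatrix_smul`. -/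
theorem phi_heckeT_le (g : ℍ → ℂ) {q : ℕ} (hq : q ≠ 0) (τ : ℍ) :
    phi (heckeT 2 q g) τ ≤
      phi g (heckeDiagMatrix q • τ) + ∑ j ∈ Finset.range q, phi g (heckeMatrix q j • τ) := by
  have hq' : (0 : ℝ) < q := by exact_mod_cast Nat.pos_of_ne_zero hq
  have him : 0 < τ.im := τ.im_pos
  unfold phi
  rw [heckeT_apply 2 hq, im_heckeDiagMatrix_smul hq]
  simp only [im_heckeMatrix_smul hq]
  have h1 : ‖(q : ℂ)⁻¹ * ∑ j ∈ Finset.range q, g (heckeMatrix q j • τ)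
      + (q : ℂ) ^ ((2 : ℤ) - 1) * g (heckeDiagMatrix q • τ)‖ ≤
      (q : ℝ)⁻¹ * ∑ j ∈ Finset.range q, ‖g (heckeMatrix q j • τ)‖
        + (q : ℝ) * ‖g (heckeDiagMatrix q • τ)‖ := by
    refine (norm_add_le _ _).trans (add_le_add ?_ ?_)
    · rw [norm_mul, norm_inv, Complex.norm_natCast]
      exact mul_le_mul_of_nonneg_left (norm_sum_le _ _) (inv_nonneg.2 hq'.le)
    · rw [norm_mul]
      norm_num
  refine (mul_le_mul_of_nonneg_right h1 him.le).trans (le_of_eq ?_)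
  rw [← Finset.sum_mul]
  field_simp
  ring

end Fermat.Agent.S15.NE
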