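import Fermat.Agent.S15.NE.Max
import Fermat.Agent.S15.NE.PhiHecke

/-!
# S15-NE : `T_q f = c f`, `|c| ≥ q + 1`  ⟹  `f = 0`
-/

set_option autoImplicit false

open UpperHalfPlane Filter ModularForm
open scoped Modular MatrixGroups Topology

namespace Fermat.Agent.S15.NE

variable {N : ℕ} [NeZero N] (f : CuspForm (CongruenceSubgroup.Gamma0 N) 2)

/-- `exists_max` for `P = phi f`, `Γ = Gamma0 N` (finite index: `inferInstance` or
`CongruenceSubgroup` API), `g = 1` included in `tendsto_phi_smul`. -/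
theorem exists_max_phi : ∃ τ₀, ∀ τ, phi f τ ≤ phi f τ₀ :=
  exists_max (continuous_phi f) (phi_nonneg f) (Γ := CongruenceSubgroup.Gamma0 N)
    (fun g hg τ => phi_smul f g hg τ) (tendsto_phi_smul f)

/-- if `τ₀` is a maximum then so is `q τ₀`:
`(q+1) M ≤ |c| φ(τ₀) = φ(T_q f)(τ₀) ≤ φ(q τ₀) + q M`. -/
theorem max_step {q : ℕ} (hq : q ≠ 0) {c : ℂ} (hc : (q : ℝ) + 1 ≤ ‖c‖)
    (h : heckeT 2 q ⇑f = c • ⇑f) {τ₀ : ℍ} (hmax : ∀ τ, phi f τ ≤ phi f τ₀) :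
    phi f (heckeDiagMatrix q • τ₀) = phi f τ₀ := by
  apply le_antisymm (hmax _)
  have h1 := phi_heckeT_le (⇑f) hq τ₀
  have h2 : phi (heckeT 2 q ⇑f) τ₀ = ‖c‖ * phi f τ₀ := by
    rw [h]
    simp only [phi, Pi.smul_apply, smul_eq_mul, norm_mul]
    ring
  have h3 : ∑ j ∈ Finset.range q, phi f (heckeMatrix q j • τ₀) ≤ q * phi f τ₀ := by
    have := Finset.sum_le_card_nsmul (Finset.range q) (fun j => phi f (heckeMatrix q j • τ₀))
      (phi f τ₀) (fun j _ => hmax _)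
    simpa using this
  have h4 : ((q : ℝ) + 1) * phi f τ₀ ≤ ‖c‖ * phi f τ₀ :=
    mul_le_mul_of_nonneg_right hc (phi_nonneg f τ₀)
  rw [h2] at h1
  linarith

/-- iterate `max_step`: a sequence `τ_k` of maxima with `im τ_k = q^k im τ₀`. -/
theorem exists_max_seq {q : ℕ} (hq : q ≠ 0) {c : ℂ} (hc : (q : ℝ) + 1 ≤ ‖c‖)
    (h : heckeT 2 q ⇑f = c • ⇑f) {τ₀ : ℍ} (hmax : ∀ τ, phi f τ ≤ phi f τ₀) (k : ℕ) :
    ∃ τ : ℍ, τ.im = (q : ℝ) ^ k * τ₀.im ∧ phi f τ = phi f τ₀ := by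
  induction k with
  | zero => exact ⟨τ₀, by simp, rfl⟩
  | succ k ih =>
    obtain ⟨τ, him, hphi⟩ := ih
    refine ⟨heckeDiagMatrix q • τ, ?_, ?_⟩
    · rw [im_heckeDiagMatrix_smul hq, him, pow_succ]
      ring
    · rw [max_step f hq hc h (τ₀ := τ) (fun τ' => by rw [hphi]; exact hmax τ'), hphi]

/-- **(NE), analytic form.**  For `q ≥ 2`: `im τ_k → ∞`, so `phi f τ_k → 0` (`tendsto_phi_smul 1`),
but it is constant `= M`; so `M = 0`, `phi f = 0`, `f = 0`.  For `q = 1`: `heckeT 2 1 f = 2 f`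
(`heckeT_apply`; both matrices act trivially) and `‖c‖ ≥ 2`... then `(c - 2) f = 0`: this case is
FALSE for `c = 2`, hence the hypothesis `2 ≤ q`. -/
theorem eq_zero_of_heckeT_eq {q : ℕ} (hq : 2 ≤ q) {c : ℂ} (hc : (q : ℝ) + 1 ≤ ‖c‖)
    (h : heckeT 2 q ⇑f = c • ⇑f) : f = 0 := by
  have hq0 : q ≠ 0 := by omega
  obtain ⟨τ₀, hmax⟩ := exists_max_phi f
  have hM : phi f τ₀ = 0 := by
    by_contra hne
    have hpos : 0 < phi f τ₀ := lt_of_le_of_ne (phi_nonneg f τ₀) (Ne.symm hne)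
    have ht := tendsto_phi_smul f 1
    have hev : ∀ᶠ τ in atImInfty, phi f ((1 : SL(2, ℤ)) • τ) < phi f τ₀ :=
      ht.eventually (gt_mem_nhds hpos)
    obtain ⟨B, hB⟩ := (atImInfty_mem _).mp hev
    have hq1 : (1 : ℝ) < q := by exact_mod_cast (by omega : 1 < q)
    obtain ⟨k, hk⟩ := pow_unbounded_of_one_lt (B / τ₀.im) hq1
    obtain ⟨τ, him, hphi⟩ := exists_max_seq f hq0 hc h hmax k
    have hBτ : B ≤ τ.im := by
      rw [him]
      exact ((div_lt_iff₀ τ₀.im_pos).mp hk).le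
    have := hB τ hBτ
    simp only [Set.mem_ofPred_eq, one_smul] at this
    rw [hphi] at this
    exact lt_irrefl _ this
  ext τ
  have h1 : phi f τ = 0 := le_antisymm (hM ▸ hmax τ) (phi_nonneg f τ)
  have h2 : ‖f τ‖ = 0 := by
    rcases mul_eq_zero.mp h1 with h3 | h3
    · exact h3
    · exact absurd h3 τ.im_pos.ne'
  simpa using h2

end Fermat.Agent.S15.NE
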