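import Mathlib

/-!
# S15-NE : an invariant function which vanishes at all cusps attains its maximum
-/

set_option autoImplicit false

open UpperHalfPlane Filter
open scoped Modular MatrixGroups Topology

namespace Fermat.Agent.S15.NE

/-- PROOF.  If `P = 0` everywhere take any point.  Otherwise `P τ₁ = ε > 0`.  Let `R` be a finite set
of representatives: every `g : SL(2, ℤ)` is `γ * r` with `γ ∈ Γ`, `r ∈ R` (`Γ.FiniteIndex`: right
cosets, e.g. `Subgroup.exists_finset_card_le_mul`, `Quotient.out` on `SL(2,ℤ) ⧸ Γ` and inverses, see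
the proof of Mathlib's `ModularGroup.exists_bound_of_subgroup_invariant_of_isBigO`).  Choose `y` with
`P (r • τ) < ε` for all `r ∈ R` and `y ≤ τ.im` (`hzero`, `atImInfty`).  On the compact set
`ModularGroup.truncatedFundamentalDomain y` (`isCompact_truncatedFundamentalDomain`; it may be empty:
then the argument below shows `P τ₁ < ε`, absurd) each continuous function `τ ↦ P (r • τ)` attains its
maximum; let `P* = P (r* • τ*)` be the largest of these finitely many maxima.  For any `τ`: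
`g • τ =: w ∈ 𝒟` (`ModularGroup.exists_smul_mem_fd`), `g⁻¹ = γ r`, `P τ = P (γ • r • w) = P (r • w)`,
which is `≤ P*` if `w.im ≤ y` and `< ε` otherwise.  For `τ = τ₁` the second case is impossible, so
`ε ≤ P*`; hence `P τ ≤ P*` for all `τ`. -/
theorem exists_max {P : ℍ → ℝ} (hcont : Continuous P) (hnn : ∀ τ, 0 ≤ P τ)
    {Γ : Subgroup SL(2, ℤ)} [Γ.FiniteIndex] (hinv : ∀ g ∈ Γ, ∀ τ, P (g • τ) = P τ)
    (hzero : ∀ g : SL(2, ℤ), Tendsto (fun τ => P (g • τ)) atImInfty (𝓝 0)) :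
    ∃ τ₀, ∀ τ, P τ ≤ P τ₀ := by
  classical
  by_cases h0 : ∀ τ, P τ = 0
  · exact ⟨I, fun τ => by rw [h0, h0]⟩
  obtain ⟨τ₁, hτ₁⟩ := not_forall.mp h0
  have hε : 0 < P τ₁ := lt_of_le_of_ne (hnn τ₁) (Ne.symm hτ₁)
  have : Fintype (SL(2, ℤ) ⧸ Γ) := Subgroup.fintypeQuotientOfFiniteIndex
  let r : SL(2, ℤ) ⧸ Γ → SL(2, ℤ) := fun x => (x.out)⁻¹
  have hrep : ∀ τ, ∃ x, ∃ w ∈ 𝒟, P τ = P (r x • w) := by
    intro τ
    obtain ⟨g, hg⟩ := ModularGroup.exists_smul_mem_fd τ
    refine ⟨(g : SL(2, ℤ) ⧸ Γ), g • τ, hg, ?_⟩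
    obtain ⟨h, hh⟩ := QuotientGroup.mk_out_eq_mul Γ g
    show P τ = P (((g : SL(2, ℤ) ⧸ Γ).out)⁻¹ • g • τ)
    rw [hh, mul_inv_rev, ← mul_smul, inv_mul_cancel_right, hinv _ (inv_mem h.2)]
  have hev : ∀ᶠ τ in atImInfty, ∀ x, P (r x • τ) < P τ₁ := by
    rw [Filter.eventually_all]
    intro x
    exact (hzero (r x)).eventually_lt_const hε
  rw [atImInfty, eventually_comap, eventually_atTop] at hev
  obtain ⟨y, hy⟩ := hev
  have hK : IsCompact (ModularGroup.truncatedFundamentalDomain y) :=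
    ModularGroup.isCompact_truncatedFundamentalDomain y
  obtain ⟨x₁, w₁, hw₁, he₁⟩ := hrep τ₁
  have hw₁K : w₁ ∈ ModularGroup.truncatedFundamentalDomain y := by
    refine ⟨hw₁, ?_⟩
    by_contra hlt
    have := hy w₁.im (le_of_lt (not_le.mp hlt)) w₁ rfl x₁
    rw [← he₁] at this
    exact lt_irrefl _ this
  have hmax : ∀ x, ∃ t ∈ ModularGroup.truncatedFundamentalDomain y,
      ∀ w ∈ ModularGroup.truncatedFundamentalDomain y, P (r x • w) ≤ P (r x • t) := by
    intro x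
    have hc : ContinuousOn (fun w => P (r x • w)) (ModularGroup.truncatedFundamentalDomain y) := by
      apply Continuous.continuousOn
      simp only [ModularGroup.sl_moeb]
      fun_prop
    obtain ⟨t, ht, hmx⟩ := hK.exists_isMaxOn ⟨w₁, hw₁K⟩ hc
    exact ⟨t, ht, fun w hw => hmx hw⟩
  choose t ht hmx using hmax
  obtain ⟨x₀, -, hx₀⟩ := Finset.exists_max_image Finset.univ (fun x => P (r x • t x))
    ⟨x₁, Finset.mem_univ _⟩
  refine ⟨r x₀ • t x₀, fun τ => ?_⟩
  obtain ⟨x, w, hw, he⟩ := hrep τ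
  rw [he]
  by_cases hwy : w.im ≤ y
  · exact (hmx x w ⟨hw, hwy⟩).trans (hx₀ x (Finset.mem_univ _))
  · have h1 := hy w.im (le_of_lt (not_le.mp hwy)) w rfl x
    have h2 : P τ₁ ≤ P (r x₀ • t x₀) := by
      rw [he₁]
      exact (hmx x₁ w₁ hw₁K).trans (hx₀ x₁ (Finset.mem_univ _))
    exact (h1.trans_le h2).le

end Fermat.Agent.S15.NE
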