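import Mathlib
import Fermat.Prelude.Def_ModularForm_HeckeOperator

/-!
# S15-NE : the function `φ = y |f|` for a weight 2 cusp form
-/

set_option autoImplicit false

open UpperHalfPlane Filter ModularForm
open scoped Modular MatrixGroups Topology

namespace Fermat.Agent.S15.NE

/-- `y |f(z)|` -/
noncomputable def phi (f : ℍ → ℂ) (τ : ℍ) : ℝ := ‖f τ‖ * τ.im

variable {N : ℕ} [NeZero N] (f : CuspForm (CongruenceSubgroup.Gamma0 N) 2)

theorem phi_nonneg (g : ℍ → ℂ) (τ : ℍ) : 0 ≤ phi g τ := by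
  exact mul_nonneg (norm_nonneg _) τ.im_pos.le

theorem continuous_phi : Continuous (phi f) := by
  unfold phi
  fun_prop

/-- `phi f τ ^ 2 = ‖petersson 2 f f τ‖` -/
theorem phi_sq (g : ℍ → ℂ) (τ : ℍ) : phi g τ ^ 2 = ‖petersson 2 g g τ‖ := by
  simp only [phi, petersson, norm_mul, Complex.norm_conj, norm_zpow, Complex.norm_real,
    Real.norm_of_nonneg τ.im_pos.le]
  rw [mul_pow, sq ‖g τ‖]
  norm_cast

/-- from `SlashInvariantFormClass.norm_petersson_smul` and `phi_sq` (or directly from the slash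
invariance: `f (γ τ) = (cτ+d)² f τ`, `im (γ τ) = im τ / |cτ+d|²`). -/
theorem phi_smul (γ : SL(2, ℤ)) (hγ : γ ∈ CongruenceSubgroup.Gamma0 N) (τ : ℍ) :
    phi f (γ • τ) = phi f τ := by
  have h1 : phi f (γ • τ) ^ 2 = phi f τ ^ 2 := by
    rw [phi_sq, phi_sq]
    exact SlashInvariantFormClass.norm_petersson_smul
      (Γ := ((CongruenceSubgroup.Gamma0 N : Subgroup SL(2, ℤ)) : Subgroup (GL (Fin 2) ℝ)))
      (g := (γ : GL (Fin 2) ℝ)) (f := f) (f' := f) (Subgroup.mem_map_of_mem _ hγ)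
  exact (sq_eq_sq₀ (phi_nonneg _ _) (phi_nonneg _ _)).1 h1

open ConjAct Pointwise in
theorem Phi_tendsto_petersson (g : SL(2, ℤ)) :
    Tendsto (fun τ => petersson 2 f f (g • τ)) atImInfty (𝓝 0) := by
  simp_rw [← UpperHalfPlane.petersson_slash_SL]
  have : ((toConjAct (g : GL (Fin 2) ℝ)⁻¹) •
      ((CongruenceSubgroup.Gamma0 N : Subgroup SL(2, ℤ)) : Subgroup (GL (Fin 2) ℝ))).IsArithmetic := by
    simpa [(show Rat.castHom ℝ = algebraMap ℚ ℝ by rfl), map_inv,
        Matrix.SpecialLinearGroup.map_mapGL]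
      using! Subgroup.IsArithmetic.conj
        ((CongruenceSubgroup.Gamma0 N : Subgroup SL(2, ℤ)) : Subgroup (GL (Fin 2) ℝ))
        (Matrix.SpecialLinearGroup.mapGL ℚ g)⁻¹
  exact (CuspFormClass.zero_at_infty <| CuspForm.translate f g).petersson_isZeroAtImInfty_left 2 _
    (ModularForm.translate f g)

/-- as in Mathlib's proof of `CuspFormClass.petersson_bounded_left`:
`petersson 2 f f (g • τ) = petersson 2 (f ∣[2] g) (f ∣[2] g) τ` (`petersson_slash_SL`), and
`(zero_at_infty (CuspForm.translate f g)).petersson_isZeroAtImInfty_left`; then `phi_sq` and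
`Real.sqrt` / `sq` continuity (`phi ≥ 0`, `phi² → 0`). -/
theorem tendsto_phi_smul (g : SL(2, ℤ)) : Tendsto (fun τ => phi f (g • τ)) atImInfty (𝓝 0) := by
  have h := Phi_tendsto_petersson f g
  have h2 : Tendsto (fun τ => Real.sqrt ‖petersson 2 f f (g • τ)‖) atImInfty (𝓝 0) := by
    have h3 := (Real.continuous_sqrt.tendsto 0).comp (tendsto_zero_iff_norm_tendsto_zero.1 h)
    rw [Real.sqrt_zero] at h3
    exact h3
  refine h2.congr fun τ => ?_
  rw [← phi_sq, Real.sqrt_sq (phi_nonneg _ _)]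

end Fermat.Agent.S15.NE
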